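/-
S26 / route B : ADAPTER from the nodes of the common base (helper86) to contract E.
-/
import Fermat.Agent.S26.B.Defs
import Fermat.Agent.S26.Nodes
import Fermat.Agent.S26.System
import Fermat.Agent.S26.DegSpec

set_option autoImplicit false

universe u

open CategoryTheory CategoryTheory.Limits AlgebraicGeometry NeronModelInfra GoodReductionJacobian

namespace Fermat.Agent.S26.E

/-- `ffMap` is a function field map in the sense of route B. -/
theorem isFnMap_ffMap {X Y : Scheme.{u}} [IsIntegral X] [IsIntegral Y] (φ : Y ⟶ X)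
    (h : φ (genericPoint Y) = genericPoint X) : IsFnMap φ (ffMap φ h) := by
  intro y a
  have hy : genericPoint Y ⤳ y := (genericPoint_spec Y).specializes trivial
  have hx : genericPoint X ⤳ φ y := (genericPoint_spec X).specializes trivial
  have key : X.presheaf.stalkSpecializes hx ≫
      ((X.presheaf.stalkCongr (.of_eq h.symm)).hom ≫ φ.stalkMap (genericPoint Y)) =
      φ.stalkMap y ≫ Y.presheaf.stalkSpecializes hy := by
    rw [← Scheme.Hom.stalkSpecializes_stalkMap φ _ _ hy, ← Category.assoc]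
    congr 1
    exact TopCat.Presheaf.stalkSpecializes_comp _ (Inseparable.of_eq h.symm).ge hx
  exact congrArg (fun f => f.hom a) key

/-- the degree over the image field -/
theorem finrank_fieldRange_eq {F F' : Type u} [Field F] [Field F'] (ψ : F →+* F') :
    Module.finrank ψ.fieldRange F' = @Module.finrank F F' _ _ ψ.toAlgebra.toModule := by
  let _ := ψ.toAlgebra
  refine (Algebra.finrank_eq_of_equiv_equiv ψ.rangeRestrictFieldEquiv (RingEquiv.refl F') ?_).symm
  ext x
  rfl

/-- **Adapter E.** -/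
theorem nonempty_isogData_of_nodes {K : Type u} [Field K] (𝔸 : AbVar K)
    (hZ : ZmulEtaleNode 𝔸) (hEP : EtalePosNode.{u}) (hS : ScaleNode 𝔸) (n : ℕ)
    (hn : (n : K) ≠ 0) : Nonempty (IsogData K 𝔸.f 𝔸.L n) := by
  -- two general facts on the degree of a map of fields
  have gen1 : ∀ {F F' : Type u} [Field F] [Field F'] (ψ : F →+* F'), Function.Surjective ψ →
      @Module.finrank F F' _ _ ψ.toAlgebra.toModule = 1 := by
    intro F F' _ _ ψ hsurj
    let _ := ψ.toAlgebra
    refine (finrank_eq_one_iff_of_nonzero' (1 : F') one_ne_zero).2 fun w => ?_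
    obtain ⟨c, hc⟩ := hsurj w
    exact ⟨c, by rw [Algebra.smul_def, mul_one]; exact hc⟩
  have gen2 : ∀ {F F' : Type u} [Field F] [Field F'] (ψ : F →+* F'),
      0 < @Module.finrank F F' _ _ ψ.toAlgebra.toModule → ψ.Finite := by
    intro F F' _ _ ψ hpos
    let _ := ψ.toAlgebra
    exact Module.finite_of_finrank_pos hpos
  -- `nsmul` of the group law is the power in the group of points
  have hpow : ∀ {T : Scheme.{u}} (t : T ⟶ SK K) (m : ℕ) (x : 𝔸.Pt t),
      𝔸.L.nsmul t m x = x ^ m := by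
    intro T t m x
    induction m with
    | zero => rfl
    | succ m ih =>
      rw [pow_succ, ← ih]
      rfl
  have hz : 𝔸.zmul n = 𝔸.L.schemeNsmul n := by
    have h1 : 𝔸.idPt ^ (n : ℤ) = 𝔸.L.nsmul 𝔸.f n 𝔸.idPt := by
      rw [zpow_natCast, hpow]
    exact congrArg Subtype.val h1
  -- dominance and positivity of the degree
  obtain ⟨hdom, hpos⟩ := hEP (𝔸.zmul n) 𝔸.o (hZ n (by simpa using hn))
  -- the based scheme `(A, 0, id)`
  let B : Based 𝔸 := { W := 𝔸.A, w := 𝔸.f, pt := (1 : 𝔸.KPt), τ := 𝔸.idPt }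
  have hG : B.Good := by
    refine ⟨⊤, trivial, ?_⟩
    change Etale ((⊤ : 𝔸.A.Opens).ι ≫ 𝟙 𝔸.A)
    infer_instance
  have hdeg1 : B.deg = 1 := by
    change gdeg (𝟙 𝔸.A) = 1
    have h0 : (𝟙 𝔸.A : 𝔸.A ⟶ 𝔸.A) (genericPoint 𝔸.A) = genericPoint 𝔸.A := by simp
    unfold gdeg
    rw [dif_pos h0]
    refine gen1 _ ?_
    have : IsIso ((𝔸.A.presheaf.stalkCongr (.of_eq h0.symm)).hom ≫
        (𝟙 𝔸.A : 𝔸.A ⟶ 𝔸.A).stalkMap (genericPoint 𝔸.A)) := inferInstance
    exact (ConcreteCategory.bijective_of_isIso _).2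
  have hsc : gdeg (𝔸.zmul n) = Nat.card {x : 𝔸.KPt // x ^ n = 1} * B.deg := hS B n hn hG
  rw [hdeg1, mul_one] at hsc
  rw [hz] at hdom hpos hsc
  have hdom' : (𝔸.L.schemeNsmul n) (genericPoint 𝔸.A) = genericPoint 𝔸.A := hdom
  have hg : gdeg (𝔸.L.schemeNsmul n) = @Module.finrank 𝔸.A.functionField 𝔸.A.functionField _ _
      (ffMap (𝔸.L.schemeNsmul n) hdom').toAlgebra.toModule := by
    unfold gdeg
    rw [dif_pos hdom']
  refine ⟨{ ψ := ffMap (𝔸.L.schemeNsmul n) hdom'
            isFn := isFnMap_ffMap _ hdom'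
            finite := gen2 _ (hg ▸ hpos)
            card := ?_ }⟩
  rw [finrank_fieldRange_eq, ← hg, hsc]
  refine Nat.card_congr (Equiv.subtypeEquivRight fun x => ?_)
  change 𝔸.L.nsmul _ n x = 𝔸.L.one _ ↔ _
  exact (hpow (𝟙 _) n x) ▸ Iff.rfl

end Fermat.Agent.S26.E
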