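/-
S26 / block E : CONTRACT of the block (multiplication by `n` is finite etale; degree = #kernel),
wired to the common base (blocks GOOD, DEG).
-/
import Fermat.Agent.S26.E.Adapter
import Fermat.Agent.S26.Good.Main
import Fermat.Agent.S26.Deg.Main

set_option autoImplicit false

universe u

open CategoryTheory CategoryTheory.Limits AlgebraicGeometry NeronModelInfra GoodReductionJacobian

namespace Fermat.Agent.S26.E

/-- **Contract E.** -/
theorem nonempty_isogData {K : Type u} [Field K] [IsAlgClosed K] {A : Scheme.{u}} (f : A ⟶ SpK K)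
    (L : RelativeGroupLaw K f) (hc : L.IsCommutative) (hA : AbelianSchemePropertyBundle K f)
    [IsIntegral A] (g : ℕ) [SmoothOfRelativeDimension g f] (n : ℕ) (hn : (n : K) ≠ 0) :
    Nonempty (IsogData K f L n) := by
  have := hA.proper
  have := hA.smooth
  let 𝔸 : AbVar K := { A := A, f := f, L := L, comm := hc }
  have : SmoothOfRelativeDimension g 𝔸.f := ‹SmoothOfRelativeDimension g f›
  have hZ : ZmulEtaleNode 𝔸 := Good.zmulEtaleNode 𝔸 g
  exact nonempty_isogData_of_nodes 𝔸 hZ Deg.etalePosNode (Deg.scaleNode 𝔸 hZ) n hn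

end Fermat.Agent.S26.E
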